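import Mathlib
import Fermat.Agent.S54.Frobenius
import Fermat.Agent.S54.H94.Frobenius

/-!
# S14, package A0: dictionary between primes of `ℤ̄` and valuation subrings of `ℚ̄`

* `exists_valuationSubring_over`: a prime of `ℤ̄` over a given prime of a number field inside
  `ℚ̄`, its valuation subring, recognition of decomposition and inertia elements.
* `exists_lift_decomposition`, `exists_lift_inertia`: lifting of decomposition and inertia
  elements from a finite level to `ℚ̄`.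
-/

set_option autoImplicit false

namespace Fermat.Agent.S14.H4

open NumberField IsDedekindDomain
open scoped Pointwise

local notation "Qb" => AlgebraicClosure ℚ
local notation "Γ" => (AlgebraicClosure ℚ ≃ₐ[ℚ] AlgebraicClosure ℚ)
local notation "𝓑" => integralClosure ℤ (AlgebraicClosure ℚ)

attribute [local instance] Fermat.Agent.S54.H94.topB Fermat.Agent.S54.H94.discreteTopB

section Relative

variable (H : Subgroup Γ)

/-- The ring of invariants of a subgroup, tautologically. -/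
instance isInvariant_fixedPoints :
    Algebra.IsInvariant (FixedPoints.subalgebra ℤ 𝓑 H) 𝓑 H where
  isInvariant b hb := ⟨⟨b, hb⟩, rfl⟩

/-- Transitivity of a closed subgroup on the primes with the same invariant contraction. -/
theorem exists_smul_mem_iff_of_forall_fixed (hH : IsClosed (H : Set Γ)) (P Q : Ideal 𝓑)
    [P.IsPrime] [Q.IsPrime] (hPQ : ∀ b : 𝓑, (∀ h ∈ H, h • b = b) → (b ∈ P ↔ b ∈ Q)) :
    ∃ h ∈ H, ∀ b : 𝓑, h • b ∈ Q ↔ b ∈ P := by
  have : CompactSpace H := isCompact_iff_compactSpace.mp hH.isCompact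
  have hunder : P.under (FixedPoints.subalgebra ℤ 𝓑 H) =
      Q.under (FixedPoints.subalgebra ℤ 𝓑 H) := by
    ext a
    rw [Ideal.mem_comap, Ideal.mem_comap]
    exact hPQ a.1 fun h hh => a.2 ⟨h, hh⟩
  obtain ⟨h, hh⟩ := Algebra.IsInvariant.exists_smul_of_under_eq_of_profinite
    (A := FixedPoints.subalgebra ℤ 𝓑 H) (G := H) P Q hunder
  refine ⟨h.1, h.2, fun b => ?_⟩
  rw [hh]
  exact Ideal.smul_mem_pointwise_smul_iff (a := h) (S := P) (x := b)

end Relative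

section Dict

variable (Q : Ideal 𝓑) [hQ : Q.IsPrime] (ℓ : ℕ) (hℓ : ℓ.Prime)
  (hQℓ : ∀ a : ℤ, algebraMap ℤ 𝓑 a ∈ Q → (ℓ : ℤ) ∣ a)

/-- The valuation subring of `ℚ̄` attached to a prime `Q` of `ℤ̄` over `ℓ`: the landed
`Fermat.Agent.S54.locValuationSubring`, restated for the `ℤ`-algebra structure on `ℚ̄` that
instance search finds in this file. -/
noncomputable def valSubring : ValuationSubring Qb :=
  @S54.locValuationSubring Qb _ _ _ Q hQ ℓ hℓ hQℓ

theorem mem_valSubring_iff (y : Qb) :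
    y ∈ valSubring Q ℓ hℓ hQℓ ↔ ∃ s b : 𝓑, s ∉ Q ∧ y * s = b :=
  Iff.rfl

theorem coe_mem_valSubring (b : 𝓑) : (b : Qb) ∈ valSubring Q ℓ hℓ hQℓ :=
  ⟨1, b, (Ideal.ne_top_iff_one Q).mp hQ.ne_top, by simp⟩

theorem mem_nonunits_valSubring (y : Qb) (t q : 𝓑) (ht : t ∉ Q) (hq : q ∈ Q)
    (hy : y * t = q) : y ∈ (valSubring Q ℓ hℓ hQℓ).nonunits := by
  rw [ValuationSubring.mem_nonunits_iff_or]
  by_cases hy0 : y = 0
  · exact Or.inl hy0
  refine Or.inr fun hmem => ?_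
  obtain ⟨s', b', hs', hb'⟩ := (mem_valSubring_iff Q ℓ hℓ hQℓ _).mp hmem
  have h1 : t * s' = q * b' := by
    apply Subtype.ext
    push_cast
    rw [← hy, ← hb']
    field_simp
  have h2 : t * s' ∈ Q := by
    rw [h1]
    exact Q.mul_mem_right _ hq
  exact (hQ.mem_or_mem h2).elim ht hs'

theorem apply_mem_valSubring (σ : Γ) (hσQ : ∀ b : 𝓑, σ • b ∈ Q ↔ b ∈ Q) (x : Qb)
    (hx : x ∈ valSubring Q ℓ hℓ hQℓ) : σ x ∈ valSubring Q ℓ hℓ hQℓ := by
  obtain ⟨s, b, hs, hb⟩ := (mem_valSubring_iff Q ℓ hℓ hQℓ _).mp hx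
  refine (mem_valSubring_iff Q ℓ hℓ hQℓ _).mpr
    ⟨σ • s, σ • b, fun h => hs ((hσQ s).mp h), ?_⟩
  have h1 : ((σ • s : 𝓑) : Qb) = σ (s : Qb) := rfl
  have h2 : ((σ • b : 𝓑) : Qb) = σ (b : Qb) := rfl
  rw [h1, h2, ← hb, map_mul]

/-- An automorphism stabilising the prime `Q` lies in the decomposition subgroup of the
valuation subring of `Q`. -/
theorem mem_decompositionSubgroup_of_forall (σ : Γ) (hσ : ∀ b : 𝓑, σ • b ∈ Q ↔ b ∈ Q) :
    σ ∈ (valSubring Q ℓ hℓ hQℓ).decompositionSubgroup ℚ := by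
  have hσinv : ∀ b : 𝓑, σ⁻¹ • b ∈ Q ↔ b ∈ Q := by
    intro b
    have h1 := hσ (σ⁻¹ • b)
    rw [smul_inv_smul] at h1
    exact h1.symm
  rw [MulAction.mem_stabilizer_iff]
  ext x
  rw [ValuationSubring.mem_pointwise_smul_iff_inv_smul_mem]
  constructor
  · intro hx
    have h1 := apply_mem_valSubring Q ℓ hℓ hQℓ σ hσ _ hx
    simpa using h1
  · intro hx
    exact apply_mem_valSubring Q ℓ hℓ hQℓ σ⁻¹ hσinv _ hx

/-- An automorphism acting trivially modulo the prime `Q` lies in the inertia subgroup of the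
valuation subring of `Q`. -/
theorem mem_inertiaSubgroupIn_of_forall (σ : Γ) (hσ : ∀ b : 𝓑, σ • b - b ∈ Q) :
    σ ∈ (valSubring Q ℓ hℓ hQℓ).inertiaSubgroupIn ℚ := by
  have hσQ : ∀ b : 𝓑, σ • b ∈ Q ↔ b ∈ Q := by
    intro b
    constructor
    · intro h
      have h1 := Q.sub_mem h (hσ b)
      simpa using h1
    · intro h
      have h1 := Q.add_mem (hσ b) h
      simpa using h1
  have hdec := mem_decompositionSubgroup_of_forall Q ℓ hℓ hQℓ σ hσQ
  refine ⟨⟨σ, hdec⟩, ?_, rfl⟩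
  rw [SetLike.mem_coe, ValuationSubring.inertiaSubgroup, MonoidHom.mem_ker]
  ext x
  obtain ⟨a, rfl⟩ := IsLocalRing.residue_surjective x
  change (⟨σ, hdec⟩ : (valSubring Q ℓ hℓ hQℓ).decompositionSubgroup ℚ) •
    IsLocalRing.residue _ a = IsLocalRing.residue _ a
  rw [← IsLocalRing.ResidueField.residue_smul, ← sub_eq_zero, ← map_sub,
    IsLocalRing.residue_eq_zero_iff, ← ValuationSubring.coe_mem_nonunits_iff]
  obtain ⟨s, b, hs, hb⟩ := (mem_valSubring_iff Q ℓ hℓ hQℓ _).mp a.2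
  have hcoe : (((⟨σ, hdec⟩ : (valSubring Q ℓ hℓ hQℓ).decompositionSubgroup ℚ) • a
      - a : valSubring Q ℓ hℓ hQℓ) : Qb) = σ (a : Qb) - (a : Qb) := rfl
  rw [hcoe]
  refine mem_nonunits_valSubring Q ℓ hℓ hQℓ _ (σ • s * s)
    ((σ • b - b) * s - b * (σ • s - s)) ?_ ?_ ?_
  · intro h
    rcases hQ.mem_or_mem h with h | h
    · exact hs ((hσQ s).mp h)
    · exact hs h
  · exact Q.sub_mem (Q.mul_mem_right _ (hσ b)) (Q.mul_mem_left _ (hσ s))
  · have h1 : ((σ • s : 𝓑) : Qb) = σ (s : Qb) := rfl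
    have h2 : ((σ • b : 𝓑) : Qb) = σ (b : Qb) := rfl
    push_cast
    rw [h1, h2, ← hb, map_mul]
    ring

/-- The valuation subring of a prime of `ℤ̄` containing `ℓ` lies over `ℓ`. -/
theorem liesOverPrime_valSubring (hℓQ : (ℓ : 𝓑) ∈ Q) :
    (valSubring Q ℓ hℓ hQℓ).LiesOverPrime ℓ := by
  refine mem_nonunits_valSubring Q ℓ hℓ hQℓ (ℓ : Qb) 1 (ℓ : 𝓑)
    ((Ideal.ne_top_iff_one Q).mp hQ.ne_top) hℓQ ?_
  simp

end Dict

section Over

/-- The inclusion of the ring of integers of a subfield of `ℚ̄` in the ring of all algebraic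
integers. -/
noncomputable def inclInt (K : IntermediateField ℚ Qb) : 𝓞 K →+* 𝓑 :=
  RingHom.codRestrict ((algebraMap K Qb).comp (algebraMap (𝓞 K) K)) (integralClosure ℤ Qb)
    fun x => (RingOfIntegers.isIntegral_coe x).algebraMap

@[simp] theorem coe_inclInt (K : IntermediateField ℚ Qb) (x : 𝓞 K) :
    ((inclInt K x : 𝓑) : Qb) = ((x : K) : Qb) := rfl

theorem inclInt_injective (K : IntermediateField ℚ Qb) : Function.Injective (inclInt K) := by
  intro x y h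
  have h1 : ((x : K) : Qb) = ((y : K) : Qb) := by
    rw [← coe_inclInt, ← coe_inclInt, h]
  exact RingOfIntegers.ext (Subtype.ext h1)

/-- **A0** (dictionary, part 1): a prime of `ℤ̄` over a given prime of a number field inside
`ℚ̄`, its valuation subring (`Fermat.Agent.S54.locValuationSubring`), and recognition of
decomposition / inertia elements. -/
theorem exists_valuationSubring_over (K : IntermediateField ℚ Qb) [NumberField K]
    (v : HeightOneSpectrum (𝓞 K)) (ℓ : ℕ) (hℓ : ℓ.Prime) (hv : (ℓ : 𝓞 K) ∈ v.asIdeal) :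
    ∃ (Q : Ideal (integralClosure ℤ Qb)) (_ : Q.IsPrime) (A : ValuationSubring Qb),
      A.LiesOverPrime ℓ ∧
      (∀ (x : 𝓞 K) (b : integralClosure ℤ Qb), (b : Qb) = ((x : K) : Qb) →
        (b ∈ Q ↔ x ∈ v.asIdeal)) ∧
      (∀ σ : Γ, (∀ b : integralClosure ℤ Qb, σ • b ∈ Q ↔ b ∈ Q) →
        σ ∈ A.decompositionSubgroup ℚ) ∧
      (∀ σ : Γ, (∀ b : integralClosure ℤ Qb, σ • b - b ∈ Q) → σ ∈ A.inertiaSubgroupIn ℚ) := by
  let _ : Algebra (𝓞 K) 𝓑 := (inclInt K).toAlgebra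
  have hint : Algebra.IsIntegral (𝓞 K) 𝓑 := ⟨fun b => by
    have hb : IsIntegral ℤ b := Algebra.IsIntegral.isIntegral b
    exact hb.tower_top⟩
  obtain ⟨Q, -, hQprime, hQP⟩ := Ideal.exists_ideal_over_prime_of_isIntegral v.asIdeal
    (⊥ : Ideal 𝓑) (by
      have h0 : algebraMap (𝓞 K) 𝓑 = inclInt K := rfl
      rw [h0, Ideal.comap_bot_of_injective _ (inclInt_injective K)]
      exact bot_le)
  have hmem : ∀ x : 𝓞 K, inclInt K x ∈ Q ↔ x ∈ v.asIdeal := by
    intro x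
    rw [← hQP]
    rfl
  have hQℓ : ∀ a : ℤ, algebraMap ℤ 𝓑 a ∈ Q → (ℓ : ℤ) ∣ a := by
    intro a ha
    by_contra hnd
    have ha' : (a : 𝓞 K) ∈ v.asIdeal := by
      rw [← hmem]
      have h1 : inclInt K (a : 𝓞 K) = algebraMap ℤ 𝓑 a := by
        rw [map_intCast, eq_intCast]
      rw [h1]
      exact ha
    have hcop : IsCoprime (ℓ : ℤ) a :=
      (Nat.prime_iff_prime_int.mp hℓ).irreducible.coprime_iff_not_dvd.mpr hnd
    obtain ⟨u, w, huw⟩ := hcop
    have h1 : ((u * ℓ + w * a : ℤ) : 𝓞 K) ∈ v.asIdeal := by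
      push_cast
      exact v.asIdeal.add_mem (v.asIdeal.mul_mem_left _ hv) (v.asIdeal.mul_mem_left _ ha')
    rw [huw] at h1
    exact v.isPrime.ne_top ((Ideal.eq_top_iff_one _).mpr (by simpa using h1))
  have hℓQ : (ℓ : 𝓑) ∈ Q := by
    have h1 : inclInt K (ℓ : 𝓞 K) = (ℓ : 𝓑) := map_natCast _ _
    rw [← h1, hmem]
    exact hv
  refine ⟨Q, hQprime, valSubring Q ℓ hℓ hQℓ,
    liesOverPrime_valSubring Q ℓ hℓ hQℓ hℓQ, fun x b hb => ?_,
    fun σ hσ => mem_decompositionSubgroup_of_forall Q ℓ hℓ hQℓ σ hσ,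
    fun σ hσ => mem_inertiaSubgroupIn_of_forall Q ℓ hℓ hQℓ σ hσ⟩
  have h1 : b = inclInt K x := Subtype.ext hb
  rw [h1, hmem]

end Over

section Lift

open IntermediateField

/-- An algebraic integer fixed by the fixing subgroup of `L` lies in `L`. -/
theorem coe_mem_of_fixed (L : IntermediateField ℚ Qb) (b : 𝓑)
    (hb : ∀ h ∈ L.fixingSubgroup, h • b = b) : (b : Qb) ∈ L := by
  rw [← InfiniteGalois.fixedField_fixingSubgroup L, IntermediateField.mem_fixedField_iff]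
  intro f hf
  exact congrArg Subtype.val (hb f hf)

/-- **A0** (dictionary, part 2): lifting decomposition elements from a level `L` to `ℚ̄`
(keeping the restriction to `L`; `L` need not be normal). -/
theorem exists_lift_decomposition (L : IntermediateField ℚ Qb)
    [FiniteDimensional ℚ L] (Q : Ideal (integralClosure ℤ Qb)) [Q.IsPrime] (σ₀ : Γ)
    (hσ₀ : ∀ b : integralClosure ℤ Qb, (b : Qb) ∈ L → (σ₀ • b ∈ Q ↔ b ∈ Q)) :
    ∃ σ : Γ, (∀ x ∈ L, σ x = σ₀ x) ∧ ∀ b : integralClosure ℤ Qb, σ • b ∈ Q ↔ b ∈ Q := by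
  -- the prime `σ₀⁻¹ Q`
  have hP : (σ₀⁻¹ • Q).IsPrime := inferInstance
  obtain ⟨h, hhL, hh⟩ := exists_smul_mem_iff_of_forall_fixed L.fixingSubgroup
    (IntermediateField.fixingSubgroup_isClosed L) (σ₀⁻¹ • Q) Q (fun b hb => by
      rw [Ideal.mem_pointwise_smul_iff_inv_smul_mem, inv_inv]
      exact hσ₀ b (coe_mem_of_fixed L b hb))
  refine ⟨σ₀ * h⁻¹, fun x hx => ?_, fun b => ?_⟩
  · have h1 : h⁻¹ x = x := (L.fixingSubgroup.inv_mem hhL) ⟨x, hx⟩
    rw [AlgEquiv.mul_apply, h1]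
  · have h2 := hh (h⁻¹ • b)
    rw [smul_inv_smul, Ideal.mem_pointwise_smul_iff_inv_smul_mem, inv_inv, ← mul_smul] at h2
    exact h2.symm

/-- **A0** (dictionary, part 3): lifting inertia elements from a level `L` to `ℚ̄`. -/
theorem exists_lift_inertia (L : IntermediateField ℚ Qb)
    [FiniteDimensional ℚ L] (Q : Ideal (integralClosure ℤ Qb)) [Q.IsPrime] (σ₀ : Γ)
    (hσ₀ : ∀ b : integralClosure ℤ Qb, (b : Qb) ∈ L → σ₀ • b - b ∈ Q) :
    ∃ σ : Γ, (∀ x ∈ L, σ x = σ₀ x) ∧ ∀ b : integralClosure ℤ Qb, σ • b - b ∈ Q := by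
  obtain ⟨σ₁, hσ₁L, hσ₁Q⟩ := exists_lift_decomposition L Q σ₀ (fun b hb => by
    have h0 := hσ₀ b hb
    constructor
    · intro h
      have h1 := Q.sub_mem h h0
      simpa using h1
    · intro h
      have h1 := Q.add_mem h0 h
      simpa using h1)
  have hcpt : CompactSpace L.fixingSubgroup :=
    isCompact_iff_compactSpace.mp (IntermediateField.fixingSubgroup_isClosed L).isCompact
  have hlies : Q.LiesOver (Q.under (FixedPoints.subalgebra ℤ 𝓑 L.fixingSubgroup)) := ⟨rfl⟩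
  have hstab : σ₁ ∈ MulAction.stabilizer Γ Q := by
    rw [MulAction.mem_stabilizer_iff]
    ext b
    rw [Ideal.mem_pointwise_smul_iff_inv_smul_mem]
    have h1 := hσ₁Q (σ₁⁻¹ • b)
    rw [smul_inv_smul] at h1
    exact h1.symm
  let e := Ideal.Quotient.stabilizerHom Q (Q.under ℤ) Γ ⟨σ₁, hstab⟩
  have he : ∀ b : 𝓑, e (Ideal.Quotient.mk Q b) = Ideal.Quotient.mk Q (σ₁ • b) := fun b => rfl
  let e' : (𝓑 ⧸ Q) ≃ₐ[FixedPoints.subalgebra ℤ 𝓑 L.fixingSubgroup ⧸
      Q.under (FixedPoints.subalgebra ℤ 𝓑 L.fixingSubgroup)] (𝓑 ⧸ Q) :=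
    AlgEquiv.ofRingEquiv (f := e.toRingEquiv) (by
      intro x
      obtain ⟨a, rfl⟩ := Ideal.Quotient.mk_surjective x
      change e (Ideal.Quotient.mk Q (a : 𝓑)) = Ideal.Quotient.mk Q (a : 𝓑)
      rw [he, Ideal.Quotient.eq]
      have haL : ((a : 𝓑) : Qb) ∈ L := coe_mem_of_fixed L a.1 fun h hh => a.2 ⟨h, hh⟩
      have h1 : σ₁ • (a : 𝓑) = σ₀ • (a : 𝓑) := Subtype.ext (hσ₁L _ haL)
      rw [h1]
      exact hσ₀ _ haL)
  obtain ⟨h', hh'⟩ := Ideal.Quotient.stabilizerHom_surjective_of_profinite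
    (G := L.fixingSubgroup) (Q.under (FixedPoints.subalgebra ℤ 𝓑 L.fixingSubgroup)) Q e'
  have key : ∀ c : 𝓑, σ₁ • c - (h'.1 : Γ) • c ∈ Q := by
    intro c
    have h1 := DFunLike.congr_fun hh' (Ideal.Quotient.mk Q c)
    rw [Ideal.Quotient.stabilizerHom_apply] at h1
    have h2 : e' (Ideal.Quotient.mk Q c) = Ideal.Quotient.mk Q (σ₁ • c) := rfl
    rw [h2] at h1
    exact Ideal.Quotient.eq.mp h1.symm
  refine ⟨σ₁ * (h'.1 : Γ)⁻¹, fun x hx => ?_, fun b => ?_⟩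
  · have h1 : (h'.1 : Γ)⁻¹ x = x := (L.fixingSubgroup.inv_mem h'.1.2) ⟨x, hx⟩
    rw [AlgEquiv.mul_apply, h1, hσ₁L x hx]
  · have h1 := key ((h'.1 : Γ)⁻¹ • b)
    rw [smul_inv_smul, ← mul_smul] at h1
    exact h1

end Lift

end Fermat.Agent.S14.H4
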